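import Fermat.Agent.JPC.LDof
import Fermat.Agent.JG1.Coef

set_option autoImplicit false
set_option linter.unusedSectionVars false

/-! S25, block G5: base change of the line data of a matrix point. -/

universe u

open TensorProduct Polynomial

namespace Fermat.Agent.JG4

open Fermat.Agent.JPC Fermat.Agent.JPC.PreLD Fermat.Agent.JG1

section

variable (d : ℕ) (B : Type u) [CommRing B]

/-- basis of the vectors of Laurent polynomials -/
noncomputable def bas : Module.Basis (Σ _ : Fin d, ℤ) B (Fin d → LaurentPolynomial B) :=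
  Pi.basis (fun _ => AddMonoidAlgebra.basis ℤ B)

theorem bas_apply (i : Fin d) (n : ℤ) :
    bas d B ⟨i, n⟩ = Pi.single i (AddMonoidAlgebra.single n 1 : LaurentPolynomial B) := by
  rw [bas, Pi.basis_apply, AddMonoidAlgebra.basis_apply]

variable {d B}
variable (B' : Type u) [CommRing B'] [Algebra B B']

/-- entrywise extension of scalars -/
noncomputable def mp : (Fin d → LaurentPolynomial B) →ₗ[B] (Fin d → LaurentPolynomial B') where
  toFun v i := AddMonoidAlgebra.mapRingHom ℤ (algebraMap B B') (v i)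
  map_add' v w := by
    funext i
    exact map_add _ _ _
  map_smul' b v := by
    funext i
    ext n
    show (AddMonoidAlgebra.mapRingHom ℤ (algebraMap B B') (b • v i)).coeff n =
      (b • (AddMonoidAlgebra.mapRingHom ℤ (algebraMap B B') (v i))).coeff n
    rw [AddMonoidAlgebra.coeff_smul_apply, AddMonoidAlgebra.coeff_mapRingHom,
      AddMonoidAlgebra.coeff_mapRingHom, AddMonoidAlgebra.coeff_smul_apply, smul_eq_mul, map_mul,
      Algebra.smul_def]

theorem mp_coeff (v : Fin d → LaurentPolynomial B) (i : Fin d) (n : ℤ) :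
    (mp B' v i).coeff n = algebraMap B B' ((v i).coeff n) :=
  AddMonoidAlgebra.coeff_mapRingHom _ _ _

variable (d B)

/-- `B' ⊗ B[T;T⁻¹]^d = B'[T;T⁻¹]^d` -/
noncomputable def eqv :
    (B' ⊗[B] (Fin d → LaurentPolynomial B)) ≃ₗ[B'] (Fin d → LaurentPolynomial B') :=
  (Algebra.TensorProduct.basis B' (bas d B)).equiv (bas d B') (Equiv.refl _)

theorem eqv_one_tmul (v : Fin d → LaurentPolynomial B) : eqv d B B' (1 ⊗ₜ v) = mp B' v := by
  have h : ((eqv d B B').restrictScalars B).toLinearMap ∘ₗ
      (TensorProduct.mk B B' (Fin d → LaurentPolynomial B) 1) = mp B' := by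
    refine (bas d B).ext fun ⟨i, n⟩ => ?_
    rw [LinearMap.comp_apply, TensorProduct.mk_apply]
    show eqv d B B' (1 ⊗ₜ bas d B ⟨i, n⟩) = _
    have h1 : (1 : B') ⊗ₜ[B] bas d B ⟨i, n⟩ =
        Algebra.TensorProduct.basis B' (bas d B) ⟨i, n⟩ := by
      rw [Algebra.TensorProduct.basis_apply]
    rw [h1, eqv, Module.Basis.equiv_apply, Equiv.refl_apply, bas_apply, bas_apply]
    funext j
    ext m
    rw [mp_coeff]
    by_cases hj : j = i
    · subst hj
      rw [Pi.single_eq_same, Pi.single_eq_same, AddMonoidAlgebra.coeff_single,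
        AddMonoidAlgebra.coeff_single, Finsupp.single_apply, Finsupp.single_apply]
      split_ifs
      · rw [map_one]
      · rw [map_zero]
    · rw [Pi.single_eq_of_ne hj, Pi.single_eq_of_ne hj]
      exact (map_zero _).symm
  exact DFunLike.congr_fun h v

theorem eqv_tmul (b : B') (v : Fin d → LaurentPolynomial B) :
    eqv d B B' (b ⊗ₜ v) = b • mp B' v := by
  rw [← eqv_one_tmul, ← map_smul, TensorProduct.smul_tmul', smul_eq_mul, mul_one]

/-- vectors with exponents in `S` -/
def NS (S : Set ℤ) : Submodule B (Fin d → LaurentPolynomial B) where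
  carrier := {v | ∀ i, ∀ n : ℤ, n ∉ S → (v i).coeff n = 0}
  add_mem' {v w} hv hw i n hn := by
    show (v i + w i).coeff n = 0
    rw [AddMonoidAlgebra.coeff_add, Finsupp.add_apply, hv i n hn, hw i n hn, add_zero]
  zero_mem' i n _ := rfl
  smul_mem' b v hv i n hn := by
    show (b • v i).coeff n = 0
    rw [AddMonoidAlgebra.coeff_smul_apply, hv i n hn, smul_zero]

theorem N0_eq : MPt.N0 d B = NS d B {n | 0 ≤ n} := by
  ext v
  show (∀ i, ∀ n : ℤ, n < 0 → (v i).coeff n = 0) ↔ ∀ i, ∀ n : ℤ, n ∉ {n : ℤ | 0 ≤ n} → (v i).coeff n = 0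
  simp only [Set.mem_ofPred_eq, not_le]

theorem N1_eq : MPt.N1 d B = NS d B {n | n < 0} := by
  ext v
  show (∀ i, ∀ n : ℤ, 0 ≤ n → (v i).coeff n = 0) ↔ ∀ i, ∀ n : ℤ, n ∉ {n : ℤ | n < 0} → (v i).coeff n = 0
  simp only [Set.mem_ofPred_eq, not_lt]

theorem single_mem_NS {S : Set ℤ} {n : ℤ} (hn : n ∈ S) (i : Fin d) (b : B) :
    (Pi.single i (AddMonoidAlgebra.single n b : LaurentPolynomial B) :
      Fin d → LaurentPolynomial B) ∈ NS d B S := by
  intro j m hm
  by_cases hj : j = i
  · subst hj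
    rw [Pi.single_eq_same, AddMonoidAlgebra.coeff_single, Finsupp.single_apply, if_neg]
    rintro rfl
    exact hm hn
  · rw [Pi.single_eq_of_ne hj]
    rfl

theorem vec_eq_sum (v : Fin d → LaurentPolynomial B) :
    v = ∑ i, ∑ n ∈ (v i).coeff.support,
      (Pi.single i (AddMonoidAlgebra.single n ((v i).coeff n) : LaurentPolynomial B) :
        Fin d → LaurentPolynomial B) := by
  conv_lhs => rw [← Finset.univ_sum_single v]
  refine Finset.sum_congr rfl fun i _ => ?_
  have h := eq_sum_single (v i) (v i).coeff.support fun n hn => Finsupp.notMem_support_iff.mp hn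
  conv_lhs => rw [h]
  exact map_sum (AddMonoidHom.single (fun _ : Fin d => LaurentPolynomial B) i) _ _

theorem map_NS (S : Set ℤ) :
    ((NS d B S).baseChange B').map (eqv d B B' : _ →ₗ[B'] _) = NS d B' S := by
  apply le_antisymm
  · rw [Submodule.map_le_iff_le_comap, Submodule.baseChange_eq_span, Submodule.span_le]
    rintro _ ⟨v, hv, rfl⟩
    show eqv d B B' (1 ⊗ₜ v) ∈ NS d B' S
    rw [eqv_one_tmul]
    intro i n hn
    rw [mp_coeff, hv i n hn, map_zero]
  · intro v hv
    rw [vec_eq_sum d B' v]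
    refine Submodule.sum_mem _ fun i _ => Submodule.sum_mem _ fun n hn => ?_
    have hnS : n ∈ S := by
      by_contra h
      exact (Finsupp.mem_support_iff.mp hn) (hv i n h)
    refine ⟨(v i).coeff n ⊗ₜ Pi.single i (AddMonoidAlgebra.single n 1 : LaurentPolynomial B),
      Submodule.tmul_mem_baseChange_of_mem _ (single_mem_NS d B hnS i 1), ?_⟩
    show eqv d B B' _ = _
    rw [eqv_tmul]
    funext j
    ext m
    show ((v i).coeff n • mp B' _ j).coeff m = _
    rw [AddMonoidAlgebra.coeff_smul_apply, mp_coeff]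
    by_cases hj : j = i
    · subst hj
      rw [Pi.single_eq_same, Pi.single_eq_same, AddMonoidAlgebra.coeff_single,
        AddMonoidAlgebra.coeff_single, Finsupp.single_apply, Finsupp.single_apply]
      split_ifs
      · rw [map_one, smul_eq_mul, mul_one]
      · rw [map_zero, smul_zero]
    · rw [Pi.single_eq_of_ne hj, Pi.single_eq_of_ne hj]
      show (v i).coeff n • algebraMap B B' 0 = 0
      rw [map_zero, smul_zero]

end

section

variable {k : Type u} [Field k] {X : TwoChart k} {ι : Idx X} {B : Type u} [CommRing B] [Algebra k B]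
  (B' : Type u) [CommRing B'] [Algebra k B'] [Algebra B B'] [IsScalarTower k B B']

theorem mp_mulVec (Φ : MPt X ι B) (a : X.A) (v : Fin X.d → LaurentPolynomial B) :
    mp B' ((Φ.Φ a).mulVec v) =
      ((MPtMap Φ (IsScalarTower.toAlgHom k B B')).Φ a).mulVec (mp B' v) := by
  funext i
  show AddMonoidAlgebra.mapRingHom ℤ (algebraMap B B') ((Φ.Φ a).mulVec v i) = _
  rw [RingHom.map_mulVec]
  rfl

/-- the action of `a` as a linear map -/
noncomputable def actV (Φ : MPt X ι B) (a : X.A) :
    (Fin X.d → LaurentPolynomial B) →ₗ[B] (Fin X.d → LaurentPolynomial B) where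
  toFun v := (Φ.Φ a).mulVec v
  map_add' v w := Matrix.mulVec_add _ v w
  map_smul' b v := Matrix.mulVec_smul _ b v

theorem eqv_actV (Φ : MPt X ι B) (a : X.A) (x : B' ⊗[B] (Fin X.d → LaurentPolynomial B)) :
    eqv X.d B B' ((actV Φ a).baseChange B' x) =
      ((MPtMap Φ (IsScalarTower.toAlgHom k B B')).Φ a).mulVec (eqv X.d B B' x) := by
  induction x using TensorProduct.induction_on with
  | zero =>
    rw [map_zero, map_zero, Matrix.mulVec_zero]
  | tmul b v =>
    rw [LinearMap.baseChange_tmul, eqv_tmul, eqv_tmul]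
    show b • mp B' ((Φ.Φ a).mulVec v) = _
    rw [mp_mulVec, Matrix.mulVec_smul]
  | add x y hx hy =>
    rw [map_add, map_add, map_add, Matrix.mulVec_add, hx, hy]

theorem eqv_actA (Φ : MPt X ι B) (a : X.A) (x : B' ⊗[B] (Fin X.d → LaurentPolynomial B)) :
    eqv X.d B B' ((Φ.toLD.actA a).baseChange B' x) =
      ((MPtMap Φ (IsScalarTower.toAlgHom k B B')).Φ a).mulVec (eqv X.d B B' x) :=
  eqv_actV B' Φ a x

/-- **base change of the line data of a matrix point** -/
noncomputable def bcIso (Φ : MPt X ι B) :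
    (Φ.toLD.baseChange B').Iso (MPtMap Φ (IsScalarTower.toAlgHom k B B')).toLD where
  e := eqv X.d B B'
  smul a m := eqv_actA B' Φ a m
  map0 := by
    show ((MPt.N0 X.d B).baseChange B').map (eqv X.d B B' : _ →ₗ[B'] _) = MPt.N0 X.d B'
    rw [N0_eq, N0_eq, map_NS]
  map1 := by
    show ((MPt.N1 X.d B).baseChange B').map (eqv X.d B B' : _ →ₗ[B'] _) = MPt.N1 X.d B'
    rw [N1_eq, N1_eq, map_NS]

theorem nonempty_bcIso (Φ : MPt X ι B) :
    Nonempty ((Φ.toLD.baseChange B').Iso (MPtMap Φ (IsScalarTower.toAlgHom k B B')).toLD) :=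
  ⟨bcIso B' Φ⟩

end

end Fermat.Agent.JG4
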