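import Fermat.Agent.JG4.Rig

set_option autoImplicit false
set_option linter.unusedSectionVars false

/-! S25, block G4: a matrix point is determined by its line data. -/

universe u

open TensorProduct Polynomial

namespace Fermat.Agent.JG4

open Fermat.Agent.JPC Fermat.Agent.JPC.PreLD

variable {k : Type u} [Field k] {X : TwoChart k} {ι : Idx X} {B : Type u} [CommRing B] [Algebra k B]

section

variable (Φ : MPt X ι B)

/-- the index `0` -/
abbrev z0 (X : TwoChart k) : Fin X.d := ⟨0, X.d_pos⟩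

/-- the functional `v ↦ (v 0).coeff 0` -/
noncomputable def Lam : (Fin X.d → LaurentPolynomial B) →ₗ[B] B where
  toFun v := (v (z0 X)).coeff 0
  map_add' v w := by
    show (v (z0 X) + w (z0 X)).coeff 0 = _
    rw [AddMonoidAlgebra.coeff_add, Finsupp.add_apply]
  map_smul' b v := by
    show (b • v (z0 X)).coeff 0 = _
    rw [AddMonoidAlgebra.coeff_smul_apply]
    rfl

theorem Lam_apply (v : Fin X.d → LaurentPolynomial B) : Lam (X := X) v = (v (z0 X)).coeff 0 := rfl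

theorem coeff_C (b : B) (n : ℤ) :
    (LaurentPolynomial.C b : LaurentPolynomial B).coeff n = if n = 0 then b else 0 := by
  rw [LaurentPolynomial.C_apply]

/-- constants -/
noncomputable def cst (w : Fin X.d → B) : Fin X.d → LaurentPolynomial B :=
  fun i => LaurentPolynomial.C (w i)

theorem cst_mem0 (w : Fin X.d → B) : cst w ∈ MPt.N0 X.d B := by
  intro i n hn
  rw [cst, coeff_C, if_neg hn.ne]

/-- functional on `M` of `Φ(a)` applied to a constant vector -/
theorem Lam_mulVec_cst (a : X.A) (w : Fin X.d → B) :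
    Lam ((Φ.Φ a).mulVec (cst w)) = ∑ j, ((Φ.Φ a) (z0 X) j).coeff 0 * w j := by
  rw [Lam_apply, Matrix.mulVec, dotProduct, AddMonoidAlgebra.coeff_sum, Finsupp.finsetSum_apply]
  refine Finset.sum_congr rfl fun j _ => ?_
  have h : (Φ.Φ a) (z0 X) j * cst w j = w j • (Φ.Φ a) (z0 X) j := by
    rw [cst, mul_comm, ← LaurentPolynomial.smul_eq_C_mul]
  rw [h, AddMonoidAlgebra.coeff_smul_apply, smul_eq_mul, mul_comm]

theorem Lam_norm (w : Fin X.d → B) (i : Fin X.d) : Lam ((Φ.Φ (ι.c i)).mulVec (cst w)) = w i := by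
  rw [Lam_mulVec_cst]
  simp [Φ.norm]

theorem mulVec_cst_mem (a : X.A) (ha : a ∈ X.A0) (w : Fin X.d → B) :
    (Φ.Φ a).mulVec (cst w) ∈ MPt.N0 X.d B := Φ.toLD.smul0 a ha (cst w) (cst_mem0 w)

theorem Lam_mulVec0 (a : X.A0) {v : Fin X.d → LaurentPolynomial B} (hv : v ∈ MPt.N0 X.d B) :
    Lam ((Φ.Φ (a : X.A)).mulVec v) = algebraMap k B (X.ev a) * Lam v := by
  rw [Lam_apply, Lam_apply, Matrix.mulVec, dotProduct, AddMonoidAlgebra.coeff_sum,
    Finsupp.finsetSum_apply]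
  have h : ∀ j, ((Φ.Φ (a : X.A)) (z0 X) j * v j).coeff 0 =
      if j = z0 X then algebraMap k B (X.ev a) * (v (z0 X)).coeff 0 else 0 := by
    intro j
    rw [lcoeff_mul_zero_lo (Φ.Φ0 _ a.2 (z0 X) j) (hv j), Φ.row a j]
    split_ifs with hj
    · rw [hj]
    · rw [zero_mul]
  rw [Finset.sum_congr rfl fun j _ => h j, Finset.sum_ite_eq' Finset.univ (z0 X)]
  simp

theorem Lam_cst (w : Fin X.d → B) : Lam (X := X) (cst w) = w (z0 X) := by
  rw [Lam_apply, cst, coeff_C, if_pos rfl]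

/-- the rigidification of the line data of a matrix point, as linear form -/
noncomputable def lamOf : Φ.toLD.M0 →ₗ[B] B := (Lam (X := X) (B := B)) ∘ₗ Φ.toLD.M0.subtype

theorem lamOf_apply (m : Φ.toLD.M0) : lamOf Φ m = Lam (X := X) (B := B) m.1 := rfl

theorem lamOf_surj : Function.Surjective (lamOf Φ) := fun b =>
  ⟨⟨(cst (fun _ => b) : Fin X.d → LaurentPolynomial B), cst_mem0 _⟩, by
    rw [lamOf_apply]
    exact Lam_cst (X := X) (fun _ => b)⟩

/-- the rigidification of the line data of a matrix point -/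
noncomputable def rigOf : Φ.toLD.Rig where
  lam := lamOf Φ
  smul a m := Lam_mulVec0 Φ a m.2
  surj := lamOf_surj Φ

theorem rigOf_lam (m : Φ.toLD.M0) : (rigOf Φ).lam m = Lam m.1 := rfl

end

/-- decomposition of a vector -/
theorem exists_decomp {d : ℕ} (v : Fin d → LaurentPolynomial B) :
    ∃ v₀ ∈ MPt.N0 d B, ∃ v₁ ∈ MPt.N1 d B, v = v₀ + v₁ := by
  classical
  refine ⟨fun i => ⟨(v i).coeff.filter (fun n => 0 ≤ n)⟩, ?_,
    fun i => ⟨(v i).coeff.filter (fun n => ¬ 0 ≤ n)⟩, ?_, ?_⟩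
  · intro i n hn
    exact Finsupp.filter_apply_neg _ _ (by omega)
  · intro i n hn
    exact Finsupp.filter_apply_neg _ _ (by omega)
  · funext i
    ext n
    show (v i).coeff n = (((v i).coeff.filter (fun n => 0 ≤ n)) +
      ((v i).coeff.filter (fun n => ¬ 0 ≤ n))) n
    rw [Finsupp.filter_add_filter_not]

theorem Lam_N1 {v : Fin X.d → LaurentPolynomial B} (hv : v ∈ MPt.N1 X.d B) : Lam v = 0 :=
  hv (z0 X) 0 le_rfl

section

variable {Φ Φ' : MPt X ι B} (e : Iso Φ.toLD Φ'.toLD)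

/-- the underlying map -/
noncomputable def eLin : (Fin X.d → LaurentPolynomial B) →ₗ[B] (Fin X.d → LaurentPolynomial B) :=
  (e.e : Φ.toLD.M →ₗ[B] Φ'.toLD.M)

theorem eLin_mem0 {v : Fin X.d → LaurentPolynomial B} (hv : v ∈ MPt.N0 X.d B) :
    eLin e v ∈ MPt.N0 X.d B := by
  show e.e v ∈ Φ'.toLD.M0
  rw [← e.map0]
  exact ⟨v, hv, rfl⟩

theorem eLin_mem1 {v : Fin X.d → LaurentPolynomial B} (hv : v ∈ MPt.N1 X.d B) :
    eLin e v ∈ MPt.N1 X.d B := by
  show e.e v ∈ Φ'.toLD.M1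
  rw [← e.map1]
  exact ⟨v, hv, rfl⟩

theorem eLin_mulVec (a : X.A) (v : Fin X.d → LaurentPolynomial B) :
    eLin e ((Φ.Φ a).mulVec v) = (Φ'.Φ a).mulVec (eLin e v) := e.smul a v

theorem exists_unit_Lam (h : Module.Invertible (B ⊗[k] X.A0) Φ.toLD.M0') :
    ∃ u : Bˣ, ∀ v, Lam (eLin e v) = (u : B) * Lam (X := X) v := by
  obtain ⟨u, hu⟩ := exists_unit_rig h (rigOf Φ) (Rig.comap e (rigOf Φ'))
  refine ⟨u, fun v => ?_⟩
  obtain ⟨v₀, h₀, v₁, h₁, rfl⟩ := exists_decomp v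
  rw [map_add, map_add, map_add, Lam_N1 h₁, Lam_N1 (eLin_mem1 e h₁), add_zero, add_zero]
  exact hu ⟨v₀, h₀⟩

theorem Φ_tzpow (Φ : MPt X ι B) (n : ℤ) : Φ.Φ (((X.t ^ n : X.Aˣ)) : X.A) =
    Matrix.scalar (Fin X.d) (LaurentPolynomial.T n) := by
  cases n with
  | ofNat n =>
    rw [Int.ofNat_eq_natCast, zpow_natCast, Units.val_pow_eq_pow_val, Φ.Φ_tpow]
  | negSucc n =>
    rw [zpow_negSucc, ← inv_pow, Units.val_pow_eq_pow_val, Φ.Φ_tinvpow]
    rfl

theorem exists_cst {v : Fin X.d → LaurentPolynomial B} (h0 : v ∈ MPt.N0 X.d B)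
    (h1 : (Φ.Φ ((X.t⁻¹ : X.Aˣ) : X.A)).mulVec v ∈ MPt.N1 X.d B) : ∃ w, v = cst w := by
  refine ⟨fun i => (v i).coeff 0, ?_⟩
  funext i
  ext n
  rw [cst, coeff_C]
  split_ifs with hn
  · rw [hn]
  · rcases lt_or_gt_of_ne hn with h | h
    · exact h0 i n h
    · have h2 := h1 i (n - 1) (by omega)
      rw [Φ.Φ_tinv, Matrix.scalar_apply, Matrix.mulVec_diagonal, lcoeff_T_mul] at h2
      rw [show n = n - 1 - -1 by ring]
      exact h2

theorem tinv_cst (w : Fin X.d → B) :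
    (Φ.Φ ((X.t⁻¹ : X.Aˣ) : X.A)).mulVec (cst w) ∈ MPt.N1 X.d B := by
  intro i n hn
  rw [Φ.Φ_tinv, Matrix.scalar_apply, Matrix.mulVec_diagonal, lcoeff_T_mul, cst, coeff_C, if_neg]
  omega

theorem eLin_cst {u : Bˣ} (hu : ∀ v, Lam (eLin e v) = (u : B) * Lam (X := X) v) (w : Fin X.d → B) :
    eLin e (cst w) = (u : B) • cst w := by
  obtain ⟨w', hw'⟩ := exists_cst (Φ := Φ') (eLin_mem0 e (cst_mem0 w)) (by
    rw [← eLin_mulVec]
    exact eLin_mem1 e (tinv_cst w))
  rw [hw']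
  funext i
  have h1 : w' i = (u : B) * w i := by
    rw [← Lam_norm Φ' w' i, ← hw', ← eLin_mulVec, hu, Lam_norm Φ w i]
  rw [cst, h1, map_mul]
  show _ = (u : B) • LaurentPolynomial.C (w i)
  rw [LaurentPolynomial.smul_eq_C_mul]

theorem mulVec_tz_single (n : ℤ) (i : Fin X.d) (b : B) :
    (Φ.Φ (((X.t ^ n : X.Aˣ)) : X.A)).mulVec (cst (Pi.single i b)) =
      Pi.single i (LaurentPolynomial.C b * LaurentPolynomial.T n) := by
  rw [Φ_tzpow]
  funext j
  rw [Matrix.scalar_apply, Matrix.mulVec_diagonal, cst]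
  by_cases h : j = i
  · subst h
    rw [Pi.single_eq_same, Pi.single_eq_same, mul_comm]
  · rw [Pi.single_eq_of_ne h, Pi.single_eq_of_ne h, map_zero, mul_zero]

theorem eLin_eq {u : Bˣ} (hu : ∀ v, Lam (eLin e v) = (u : B) * Lam (X := X) v)
    (v : Fin X.d → LaurentPolynomial B) : eLin e v = (u : B) • v := by
  have key : ∀ (i : Fin X.d) (f : LaurentPolynomial B),
      eLin e (Pi.single i f) = (u : B) • Pi.single i f := by
    intro i f
    induction f using LaurentPolynomial.induction_on' with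
    | add p q hp hq =>
      rw [Pi.single_add, map_add, hp, hq, smul_add]
    | C_mul_T n b =>
      rw [← mulVec_tz_single (Φ := Φ), eLin_mulVec, eLin_cst e hu, Matrix.mulVec_smul,
        mulVec_tz_single, mulVec_tz_single]
  have h : eLin e = (u : B) • LinearMap.id := by
    refine LinearMap.pi_ext fun i f => ?_
    exact key i f
  rw [h]
  rfl

end

theorem mpt_ext {Φ Φ' : MPt X ι B} (h : Φ.Φ = Φ'.Φ) : Φ = Φ' := by
  obtain ⟨f, _, _, _, _, _⟩ := Φ
  obtain ⟨f', _, _, _, _, _⟩ := Φ'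
  obtain rfl : f = f' := h
  rfl

/-- **a matrix point is determined by the isomorphism class of its line data** -/
theorem eq_of_iso {Φ Φ' : MPt X ι B} (e : Iso Φ.toLD Φ'.toLD)
    (h : Module.Invertible (B ⊗[k] X.A0) Φ.toLD.M0') : Φ = Φ' := by
  obtain ⟨u, hu⟩ := exists_unit_Lam e h
  apply mpt_ext
  ext1 a
  apply Matrix.mulVec_injective
  funext v
  have h2 := eLin_mulVec e a v
  rw [eLin_eq e hu, eLin_eq e hu, Matrix.mulVec_smul] at h2
  have h3 := congrArg (fun x => ((u⁻¹ : Bˣ) : B) • x) h2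
  simpa only [smul_smul, Units.inv_mul, one_smul] using h3

theorem eq_of_nonempty_iso {Φ Φ' : MPt X ι B} (hL : Φ.toLD.IsLine)
    (h : Nonempty (Iso Φ.toLD Φ'.toLD)) : Φ = Φ' :=
  eq_of_iso h.some hL.inv0

end Fermat.Agent.JG4
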