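import Fermat.Agent.JPC.LDof

set_option autoImplicit false

/-! S25, block G4: rigidifications are unique up to a unit; a matrix point is determined by its
line data. -/

universe u

open TensorProduct Polynomial

namespace Fermat.Agent.JG4

open Fermat.Agent.JPC Fermat.Agent.JPC.PreLD

variable {k : Type u} [Field k] {X : TwoChart k} {B : Type u} [CommRing B] [Algebra k B]

variable (X B) in
/-- evaluation at `ε_B` -/
noncomputable def evB : B ⊗[k] X.A0 →ₐ[B] B :=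
  Algebra.TensorProduct.lift (AlgHom.id B B) ((Algebra.ofId k B).comp X.ev)
    (fun _ _ => Commute.all _ _)

theorem evB_tmul (b : B) (a : X.A0) : evB X B (b ⊗ₜ a) = b * algebraMap k B (X.ev a) := rfl

section

variable {L : PreLD X B}

/-- `lam` is semilinear for `evB` -/
theorem lam_smul (r : L.Rig) (s : B ⊗[k] X.A0) (m : L.M0') :
    r.lam ⟨s • (m : L.M), (s • m).2⟩ = evB X B s * r.lam ⟨(m : L.M), m.2⟩ := by
  induction s using TensorProduct.induction_on with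
  | zero =>
    rw [map_zero, zero_mul]
    have h : (⟨(0 : B ⊗[k] X.A0) • (m : L.M), ((0 : B ⊗[k] X.A0) • m).2⟩ : L.M0) = 0 :=
      Subtype.ext (zero_smul (B ⊗[k] X.A0) (m : L.M))
    rw [h, map_zero]
  | add x y hx hy =>
    rw [map_add, add_mul, ← hx, ← hy, ← map_add]
    congr 1
    exact Subtype.ext (add_smul x y (m : L.M))
  | tmul b a =>
    rw [evB_tmul, mul_assoc, ← r.smul a ⟨(m : L.M), m.2⟩, ← smul_eq_mul, ← map_smul]
    rfl

/-- **rigidifications are unique up to a unit** -/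
theorem exists_unit_rig (h : Module.Invertible (B ⊗[k] X.A0) L.M0') (r r' : L.Rig) :
    ∃ u : Bˣ, ∀ m : L.M0, r'.lam m = (u : B) * r.lam m := by
  let _ : Algebra (B ⊗[k] X.A0) B := (evB X B).toRingHom.toAlgebra
  have hsm : ∀ (s : B ⊗[k] X.A0) (b : B), s • b = evB X B s * b := fun _ _ => rfl
  let lin : L.Rig → (L.M0' →ₗ[B ⊗[k] X.A0] B) := fun r =>
    { toFun := fun m => r.lam ⟨(m : L.M), m.2⟩
      map_add' := fun x y => r.lam.map_add ⟨(x : L.M), x.2⟩ ⟨(y : L.M), y.2⟩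
      map_smul' := fun s m => lam_smul r s m }
  have hlin : ∀ (r : L.Rig) (m : L.M0), lin r ⟨(m : L.M), m.2⟩ = r.lam m := fun _ _ => rfl
  have key : ∀ m m' : L.M0, r'.lam m * r.lam m' = r'.lam m' * r.lam m := by
    intro m m'
    let β : L.M0' →ₗ[B ⊗[k] X.A0] L.M0' →ₗ[B ⊗[k] X.A0] B :=
      (LinearMap.mul (B ⊗[k] X.A0) B).compl₁₂ (lin r') (lin r)
    have h1 : (⟨(m : L.M), m.2⟩ : L.M0') ⊗ₜ[B ⊗[k] X.A0] (⟨(m' : L.M), m'.2⟩ : L.M0') =
        (⟨(m' : L.M), m'.2⟩ : L.M0') ⊗ₜ[B ⊗[k] X.A0] (⟨(m : L.M), m.2⟩ : L.M0') :=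
      Module.Invertible.tmul_comm
    exact congrArg (TensorProduct.lift β) h1
  obtain ⟨m, hm⟩ := r.surj 1
  obtain ⟨m', hm'⟩ := r'.surj 1
  have h1 := key m m'
  rw [hm, hm', one_mul] at h1
  refine ⟨⟨r'.lam m, r.lam m', h1, by rw [mul_comm]; exact h1⟩, fun n => ?_⟩
  have h2 := key n m
  rw [hm, mul_one] at h2
  exact h2

end

/-- transport of a rigidification along an isomorphism -/
noncomputable def Rig.comap {L L' : PreLD X B} (e : Iso L L') (r : L'.Rig) : L.Rig where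
  lam := r.lam ∘ₗ ((e.e : L.M →ₗ[B] L'.M).restrict (p := L.M0) (q := L'.M0) (fun m hm => by
    rw [← e.map0]; exact ⟨m, hm, rfl⟩))
  smul a m := by
    show r.lam ⟨e.e ((a : X.A) • (m : L.M)), _⟩ = algebraMap k B (X.ev a) * r.lam ⟨e.e (m : L.M), _⟩
    rw [← r.smul]
    congr 1
    exact Subtype.ext (e.smul _ _)
  surj b := by
    obtain ⟨m, hm⟩ := r.surj b
    have h : (m : L'.M) ∈ L.M0.map (e.e : L.M →ₗ[B] L'.M) := by rw [e.map0]; exact m.2
    obtain ⟨m', hm', h'⟩ := h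
    refine ⟨⟨m', hm'⟩, ?_⟩
    rw [← hm]
    show r.lam ⟨e.e m', _⟩ = _
    congr 1
    exact Subtype.ext h'

end Fermat.Agent.JG4
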